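/-
S24 helper (helper79): the fundamental identity for a function field in one variable.

For `K` algebraically closed of characteristic zero, `F / K` a field, `y ∈ F` transcendental with
`F / K(y)` finite: the places of `F` at which `y` vanishes are finitely many and
`∑_v ord_v y = [F : K(y)]`.
-/
import Mathlib
import Fermat.Prelude.Def_AlgebraicCurve_DivisorClassGroup
import Fermat.Agent.S24.H52.AddVal

set_option autoImplicit false

open AlgebraicCurve IntermediateField IsDedekindDomain
open scoped IntermediateField.algebraAdjoinAdjoin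

noncomputable section

namespace Fermat.Agent.S24.H79

open Fermat.Agent.S24.H52

variable {K F : Type*} [Field K] [Field F] [Algebra K F]

/-! ### The additive valuation of a multiplicative `ℤᵐ⁰`-valued valuation -/

/-- `f ↦ -log (v f)` is an additive valuation. -/
theorem isAddVal_neg_log (v : Valuation F (WithZero (Multiplicative ℤ))) :
    IsAddVal (fun f => -(WithZero.log (v f))) where
  map_one := by simp
  map_mul := fun {f g} hf hg => by
    have hf' : v f ≠ 0 := (Valuation.ne_zero_iff _).mpr hf
    have hg' : v g ≠ 0 := (Valuation.ne_zero_iff _).mpr hg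
    simp only [map_mul]
    rw [WithZero.log_mul hf' hg']
    ring
  map_add := by
    intro f g hf hg hfg
    have h := Valuation.map_add v f g
    have hf' : v f ≠ 0 := (Valuation.ne_zero_iff _).mpr hf
    have hg' : v g ≠ 0 := (Valuation.ne_zero_iff _).mpr hg
    have hfg' : v (f + g) ≠ 0 := (Valuation.ne_zero_iff _).mpr hfg
    rcases le_max_iff.mp h with h1 | h1
    · have := (WithZero.log_le_log hfg' hf').mpr h1
      exact le_trans (min_le_left _ _) (by omega)
    · have := (WithZero.log_le_log hfg' hg').mpr h1
      exact le_trans (min_le_right _ _) (by omega)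

section Dedekind

variable {S : Type*} [CommRing S] [IsDedekindDomain S] [Algebra S F] [IsFractionRing S F]
  [Algebra K S] [IsScalarTower K S F]

/-- The order function of the place attached to a height one prime of a Dedekind domain with
fraction field `F` is `-log` of the adic valuation. -/
theorem ord_ofHeightOneSpectrum (w : HeightOneSpectrum S) {f : F} (hf : f ≠ 0) :
    (Place.ofHeightOneSpectrum (K := K) (F := F) w).ord f = -(WithZero.log (w.valuation F f)) := by
  set v : Place K F := Place.ofHeightOneSpectrum (K := K) (F := F) w with hv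
  have ho := isAddVal_neg_log (w.valuation F)
  have hmem : ∀ g : F, g ≠ 0 →
      (g ∈ v.toValuationSubring ↔ 0 ≤ -(WithZero.log (w.valuation F g))) := by
    intro g hg
    have hg' : w.valuation F g ≠ 0 := (Valuation.ne_zero_iff _).mpr hg
    rw [hv, Place.ofHeightOneSpectrum_toValuationSubring, Valuation.mem_valuationSubring_iff]
    constructor
    · intro h
      have := (WithZero.log_le_log hg' one_ne_zero).mpr h
      simp only [WithZero.log_one] at this
      omega
    · intro h
      have h0 : WithZero.log (w.valuation F g) ≤ WithZero.log (1 : WithZero (Multiplicative ℤ)) := by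
        simp only [WithZero.log_one]; omega
      exact (WithZero.log_le_log hg' one_ne_zero).mp h0
  obtain ⟨e, he, h⟩ := exists_ord_eq_of_mem_iff v ho hmem
  obtain ⟨π, hπ⟩ := w.valuation_exists_uniformizer F
  have hπ0 : π ≠ 0 := by
    rintro rfl
    rw [map_zero] at hπ
    exact WithZero.exp_ne_zero hπ.symm
  have h1 := h π hπ0
  rw [hπ] at h1
  simp only [WithZero.log_exp, neg_neg] at h1
  have he1 : e = 1 := Int.eq_one_of_dvd_one he.le ⟨_, h1⟩
  rw [h f hf, he1, one_mul]

end Dedekind


/-! ### The polynomial ring `K[y] ⊆ F` -/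

/-- The polynomial subring `K[y] ⊆ F`. -/
abbrev R0 (K : Type*) {F : Type*} [Field K] [Field F] [Algebra K F] (y : F) : Subalgebra K F :=
  Algebra.adjoin K {y}

/-- The element `y` of `K[y]`. -/
abbrev yR (K : Type*) {F : Type*} [Field K] [Field F] [Algebra K F] (y : F) : R0 K y :=
  ⟨y, Algebra.self_mem_adjoin_singleton K y⟩

theorem isPrincipalIdealRing_R0 (y : F) (hy : Transcendental K y) :
    IsPrincipalIdealRing (R0 K y) :=
  IsPrincipalIdealRing.of_surjective
    (Polynomial.algEquivOfTranscendental K y hy).toRingEquiv.toRingHom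
    (Polynomial.algEquivOfTranscendental K y hy).surjective

theorem algEquiv_X (y : F) (hy : Transcendental K y) :
    Polynomial.algEquivOfTranscendental K y hy Polynomial.X = yR K y := by
  rw [Polynomial.algEquivOfTranscendental_apply, Polynomial.aeval_X]

theorem irreducible_yR (y : F) (hy : Transcendental K y) : Irreducible (yR K y) := by
  rw [← algEquiv_X y hy]
  exact (MulEquiv.irreducible_iff (Polynomial.algEquivOfTranscendental K y hy).toMulEquiv).mpr
    Polynomial.irreducible_X

theorem yR_ne_zero (y : F) (hy : Transcendental K y) : yR K y ≠ 0 :=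
  (irreducible_yR y hy).ne_zero

/-- Every element of `K[y]` is a constant modulo `y`. -/
theorem exists_sub_mem_span_yR (y : F) (hy : Transcendental K y) (r : R0 K y) :
    ∃ c : K, r - algebraMap K (R0 K y) c ∈ Ideal.span {yR K y} := by
  obtain ⟨q, rfl⟩ := (Polynomial.algEquivOfTranscendental K y hy).surjective r
  refine ⟨q.coeff 0, ?_⟩
  rw [Ideal.mem_span_singleton]
  refine ⟨Polynomial.algEquivOfTranscendental K y hy q.divX, ?_⟩
  have h := Polynomial.divX_mul_X_add q
  have h2 : Polynomial.algEquivOfTranscendental K y hy q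
      = Polynomial.algEquivOfTranscendental K y hy q.divX * yR K y
        + algebraMap K (R0 K y) (q.coeff 0) := by
    conv_lhs => rw [← h]
    rw [map_add, map_mul, algEquiv_X, ← Polynomial.algebraMap_eq, AlgEquiv.commutes]
  rw [h2]
  ring


/-! ### Places versus height one primes of a Dedekind model -/

section Dedekind

variable {S : Type*} [CommRing S] [IsDedekindDomain S] [Algebra S F] [IsFractionRing S F]
  [Algebra K S] [IsScalarTower K S F]

/-- Membership in a height one prime in terms of the order function of its place. -/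
theorem mem_asIdeal_iff_ord_pos (w : HeightOneSpectrum S) (s : S) :
    s ∈ w.asIdeal ↔
      s = 0 ∨ 0 < (Place.ofHeightOneSpectrum (K := K) (F := F) w).ord (algebraMap S F s) := by
  by_cases hs : s = 0
  · simp [hs]
  have hs' : algebraMap S F s ≠ 0 := by
    simpa using (IsFractionRing.injective S F).ne hs
  have hv : w.valuation F (algebraMap S F s) ≠ 0 := (Valuation.ne_zero_iff _).mpr hs'
  rw [ord_ofHeightOneSpectrum (K := K) w hs', ← w.valuation_lt_one_iff_mem (K := F)]
  constructor
  · intro h
    right
    have := (WithZero.log_lt_log hv one_ne_zero).mpr h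
    simp only [WithZero.log_one] at this
    omega
  · rintro (h | h)
    · exact absurd h hs
    · have h0 : WithZero.log (w.valuation F (algebraMap S F s))
          < WithZero.log (1 : WithZero (Multiplicative ℤ)) := by
        simp only [WithZero.log_one]; omega
      exact (WithZero.log_lt_log hv one_ne_zero).mp h0

/-- The place attached to a height one prime determines the prime. -/
theorem ofHeightOneSpectrum_injective :
    Function.Injective (Place.ofHeightOneSpectrum (K := K) (F := F) (R := S)) := by
  intro w w' h
  ext s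
  rw [mem_asIdeal_iff_ord_pos (K := K) (F := F), mem_asIdeal_iff_ord_pos (K := K) (F := F), h]

/-- A place whose valuation ring contains the Dedekind model `S` comes from a height one prime
of `S`. -/
theorem exists_heightOneSpectrum_of_le (v : Place K F)
    (hS : ∀ s : S, algebraMap S F s ∈ v.toValuationSubring) :
    ∃ w : HeightOneSpectrum S, Place.ofHeightOneSpectrum (K := K) (F := F) w = v := by
  classical
  have hord : ∀ s : S, 0 ≤ v.ord (algebraMap S F s) := fun s => ord_nonneg_of_mem v (hS s)
  have hinj : Function.Injective (algebraMap S F) := IsFractionRing.injective S F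
  have hne : ∀ s : S, s ≠ 0 → algebraMap S F s ≠ 0 := fun s hs => by
    simpa using hinj.ne hs
  let P : Ideal S :=
    { carrier := {s | s = 0 ∨ 0 < v.ord (algebraMap S F s)}
      add_mem' := by
        rintro a b ha hb
        by_cases hab : a + b = 0
        · exact Or.inl hab
        rcases ha with rfl | ha
        · simpa using hb
        rcases hb with rfl | hb
        · simpa using Or.inr ha
        right
        by_cases ha0 : a = 0
        · subst ha0; simpa using hb
        by_cases hb0 : b = 0
        · subst hb0; simpa using ha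
        have h := (isAddVal_ord v).map_add (hne a ha0) (hne b hb0)
          (by rw [← map_add]; exact hne _ hab)
        rw [← map_add] at h
        exact lt_of_lt_of_le (lt_min ha hb) h
      zero_mem' := Or.inl rfl
      smul_mem' := by
        rintro c a ha
        by_cases hca : c * a = 0
        · exact Or.inl hca
        have hc0 : c ≠ 0 := fun h => hca (by rw [h, zero_mul])
        have ha0 : a ≠ 0 := fun h => hca (by rw [h, mul_zero])
        rcases ha with rfl | ha
        · exact absurd rfl ha0
        right
        show 0 < v.ord (algebraMap S F (c * a))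
        rw [map_mul, v.ord_mul (hne c hc0) (hne a ha0)]
        have := hord c
        omega }
  have hPmem : ∀ s : S, s ∈ P ↔ s = 0 ∨ 0 < v.ord (algebraMap S F s) := fun s => Iff.rfl
  have hPprime : P.IsPrime := by
    refine ⟨?_, ?_⟩
    · intro htop
      have h1 : (1 : S) ∈ P := htop ▸ Submodule.mem_top
      rcases (hPmem 1).mp h1 with h | h
      · exact one_ne_zero h
      · rw [map_one, v.ord_one] at h
        exact lt_irrefl _ h
    · intro a b hab
      by_cases ha0 : a = 0
      · exact Or.inl ((hPmem a).mpr (Or.inl ha0))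
      by_cases hb0 : b = 0
      · exact Or.inr ((hPmem b).mpr (Or.inl hb0))
      rcases (hPmem _).mp hab with h | h
      · exact absurd h (mul_ne_zero ha0 hb0)
      · rw [map_mul, v.ord_mul (hne a ha0) (hne b hb0)] at h
        have h1 := hord a
        have h2 := hord b
        by_cases ha : 0 < v.ord (algebraMap S F a)
        · exact Or.inl ((hPmem a).mpr (Or.inr ha))
        · exact Or.inr ((hPmem b).mpr (Or.inr (by omega)))
  have hPbot : P ≠ ⊥ := by
    -- some element of `F` is not in the valuation ring
    obtain ⟨f, hf⟩ : ∃ f : F, f ∉ v.toValuationSubring := by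
      by_contra hcon
      push Not at hcon
      exact v.ne_top' (SetLike.ext fun x => ⟨fun _ => ValuationSubring.mem_top x, fun _ => hcon x⟩)
    have hf0 : f ≠ 0 := fun h => hf (h ▸ v.toValuationSubring.zero_mem)
    obtain ⟨a, b, hb, rfl⟩ := IsFractionRing.div_surjective (A := S) f
    have hb0 : b ≠ 0 := nonZeroDivisors.ne_zero hb
    have ha0 : a ≠ 0 := by
      rintro rfl
      simp at hf0
    have hlt : v.ord (algebraMap S F a / algebraMap S F b) < 0 := by
      by_contra hcon
      exact hf ((mem_iff_ord_nonneg v hf0).mpr (not_lt.mp hcon))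
    rw [(isAddVal_ord v).map_div (hne a ha0) (hne b hb0)] at hlt
    have h1 := hord a
    intro hbot
    have hbP : b ∈ P := (hPmem b).mpr (Or.inr (by omega))
    rw [hbot, Ideal.mem_bot] at hbP
    exact hb0 hbP
  let w : HeightOneSpectrum S := ⟨P, hPprime, hPbot⟩
  refine ⟨w, ?_⟩
  set v' : Place K F := Place.ofHeightOneSpectrum (K := K) (F := F) w with hv'
  -- the valuation ring of `v'` is contained in the one of `v`
  have hle : ∀ f : F, f ≠ 0 → f ∈ v'.toValuationSubring → 0 ≤ v.ord f := by
    intro f hf0 hf
    rw [hv', Place.ofHeightOneSpectrum_toValuationSubring, Valuation.mem_valuationSubring_iff] at hf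
    obtain ⟨n, d, hnd⟩ := w.exists_primeCompl_mul_eq_of_integer f hf
    have hdP : (d : S) ∉ P := d.2
    have hd0 : (d : S) ≠ 0 := fun h => hdP ((hPmem _).mpr (Or.inl h))
    have hdord : v.ord (algebraMap S F d) = 0 := by
      have h1 := hord d
      have h2 : ¬ 0 < v.ord (algebraMap S F d) := fun h => hdP ((hPmem _).mpr (Or.inr h))
      omega
    have hn0 : n ≠ 0 := by
      rintro rfl
      rw [map_zero] at hnd
      rcases mul_eq_zero.mp hnd with h | h
      · exact hf0 h
      · exact hne _ hd0 h
    have := congrArg v.ord hnd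
    rw [v.ord_mul hf0 (hne _ hd0), hdord, add_zero] at this
    rw [this]
    exact hord n
  have hnt : ∃ g : F, g ≠ 0 ∧ v.ord g ≠ 0 := by
    obtain ⟨π, hπ⟩ := IsDiscreteValuationRing.exists_irreducible v.toValuationSubring
    refine ⟨(π : F), ?_, ?_⟩
    · simpa [ne_eq, ZeroMemClass.coe_eq_zero] using hπ.ne_zero
    · rw [v.ord_coe_irreducible hπ]; exact one_ne_zero
  have hiff := mem_iff_of_le v' (isAddVal_ord v) hle hnt
  apply Place.ext
  ext f
  by_cases hf0 : f = 0
  · subst hf0
    simp only [ValuationSubring.zero_mem]
  · rw [hiff f hf0, mem_iff_ord_nonneg v hf0]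

end Dedekind


/-! ### The integral closure of `K[y]` -/

/-- The integral closure of `K[y]` lies in every valuation ring of a place at which `y` is
regular. -/
theorem integralClosure_le_of_ord_nonneg (y : F) (v : Place K F) (hy : 0 ≤ v.ord y)
    (s : integralClosure (R0 K y) F) : (s : F) ∈ v.toValuationSubring := by
  have hyA : y ∈ v.toValuationSubring := by
    by_cases hy0 : y = 0
    · rw [hy0]; exact v.toValuationSubring.zero_mem
    · exact (mem_iff_ord_nonneg v hy0).mpr hy
  -- `K[y] ⊆ A`
  let A' : Subalgebra K F :=
    { v.toValuationSubring.toSubring with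
      algebraMap_mem' := fun a => v.algebraMap_mem' a }
  have hR : R0 K y ≤ A' := Algebra.adjoin_le (by
    rintro x hx
    rw [Set.mem_singleton_iff] at hx
    subst hx
    exact hyA)
  -- integrality over the valuation ring
  have hint : IsIntegral (R0 K y) (s : F) := s.2
  have hint' : IsIntegral v.toValuationSubring (s : F) := by
    obtain ⟨q, hq, hqs⟩ := hint
    let φ : R0 K y →+* v.toValuationSubring :=
      { toFun := fun r => ⟨r, hR r.2⟩
        map_one' := rfl
        map_mul' := fun _ _ => rfl
        map_zero' := rfl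
        map_add' := fun _ _ => rfl }
    refine ⟨q.map φ, hq.map φ, ?_⟩
    rw [Polynomial.eval₂_map]
    exact hqs
  have := (IsIntegrallyClosed.isIntegral_iff (R := v.toValuationSubring) (K := F)).mp hint'
  obtain ⟨a, ha⟩ := this
  rw [← ha]
  exact a.2


theorem isMaximal_span_yR (y : F) (hy : Transcendental K y) :
    (Ideal.span {yR K y}).IsMaximal := by
  have := isPrincipalIdealRing_R0 y hy
  exact PrincipalIdealRing.isMaximal_of_irreducible (irreducible_yR y hy)

theorem span_yR_ne_bot (y : F) (hy : Transcendental K y) : Ideal.span {yR K y} ≠ ⊥ := by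
  rw [Ne, Ideal.span_singleton_eq_bot]
  exact yR_ne_zero y hy

/-- `K → K[y]/(y)` is surjective. -/
theorem algebraMap_quotient_surjective (y : F) (hy : Transcendental K y) :
    Function.Surjective (algebraMap K (R0 K y ⧸ Ideal.span {yR K y})) := by
  intro x
  obtain ⟨r, rfl⟩ := Ideal.Quotient.mk_surjective x
  obtain ⟨c, hc⟩ := exists_sub_mem_span_yR y hy r
  refine ⟨c, ?_⟩
  rw [IsScalarTower.algebraMap_apply K (R0 K y) (R0 K y ⧸ Ideal.span {yR K y})]
  exact (Ideal.Quotient.eq.mpr hc).symm

/-- For a prime `P` of a `K[y]`-algebra `S`, integral over `K[y]` and lying over `(y)`, the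
residue field `S / P` is `K` (here `K` is algebraically closed). -/
theorem algebraMap_quotient_bijective_of_liesOver [IsAlgClosed K] (y : F)
    (hy : Transcendental K y) {S : Type*} [CommRing S] [Algebra (R0 K y) S] [Algebra K S]
    [IsScalarTower K (R0 K y) S] [Algebra.IsIntegral (R0 K y) S] (P : Ideal S) [P.IsPrime]
    [P.LiesOver (Ideal.span {yR K y})] :
    Function.Bijective (algebraMap K (S ⧸ P)) := by
  have h1 : Algebra.IsIntegral K (R0 K y ⧸ Ideal.span {yR K y}) :=
    Algebra.isIntegral_of_surjective (algebraMap_quotient_surjective y hy)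
  have : Algebra.IsIntegral K (S ⧸ P) :=
    Algebra.IsIntegral.trans (R0 K y ⧸ Ideal.span {yR K y})
  exact IsAlgClosed.algebraMap_bijective_of_isIntegral

set_option synthInstance.maxHeartbeats 400000 in
/-- The inertia degree over `(y)` is one. -/
theorem inertiaDeg'_eq_one [IsAlgClosed K] (y : F)
    (hy : Transcendental K y) {S : Type*} [CommRing S] [Algebra (R0 K y) S] [Algebra K S]
    [IsScalarTower K (R0 K y) S] [Algebra.IsIntegral (R0 K y) S] (P : Ideal S) [P.IsPrime]
    [P.LiesOver (Ideal.span {yR K y})] :
    (Ideal.span {yR K y}).inertiaDeg' P = 1 := by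
  have hmax := isMaximal_span_yR y hy
  rw [Ideal.inertiaDeg'_algebraMap]
  have hb := algebraMap_quotient_bijective_of_liesOver y hy P
  have hs : Function.Surjective (algebraMap (R0 K y ⧸ Ideal.span {yR K y}) (S ⧸ P)) := by
    intro x
    obtain ⟨c, rfl⟩ := hb.2 x
    exact ⟨algebraMap K _ c, (IsScalarTower.algebraMap_apply K _ (S ⧸ P) c).symm⟩
  have hi : Function.Injective (algebraMap (R0 K y ⧸ Ideal.span {yR K y}) (S ⧸ P)) := by
    intro a b hab
    obtain ⟨c, rfl⟩ := algebraMap_quotient_surjective y hy a
    obtain ⟨d, rfl⟩ := algebraMap_quotient_surjective y hy b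
    rw [← IsScalarTower.algebraMap_apply K _ (S ⧸ P), ← IsScalarTower.algebraMap_apply K _ (S ⧸ P)]
      at hab
    rw [hb.1 hab]
  have e : (R0 K y ⧸ Ideal.span {yR K y}) ≃ₗ[R0 K y ⧸ Ideal.span {yR K y}] (S ⧸ P) :=
    LinearEquiv.ofBijective (Algebra.linearMap _ _) ⟨hi, hs⟩
  have : Nontrivial (R0 K y ⧸ Ideal.span {yR K y}) :=
    Ideal.Quotient.nontrivial_iff.mpr hmax.ne_top
  rw [← e.finrank_eq, Module.finrank_self]


/-! ### The fundamental identity -/

set_option synthInstance.maxHeartbeats 400000 in
set_option maxHeartbeats 1600000 in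
/-- **Fundamental identity.** The places of `F` at which the transcendental element `y` vanishes
are finitely many, and the orders of `y` at these places add up to `[F : K(y)]`. -/
theorem exists_finset_ord_pos_adjoin [IsAlgClosed K] [CharZero K] (y : F)
    (hy : Transcendental K y) [FiniteDimensional K⟮y⟯ F] :
    ∃ s : Finset (Place K F), (∀ v, v ∈ s ↔ 0 < v.ord y) ∧
      ∑ v ∈ s, v.ord y = (Module.finrank K⟮y⟯ F : ℤ) := by
  classical
  have hPID := isPrincipalIdealRing_R0 y hy
  have hy0 : y ≠ 0 := fun h => yR_ne_zero y hy (Subtype.ext h)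
  have hSD : IsDedekindDomain (integralClosure (R0 K y) F) :=
    integralClosure.isDedekindDomain (R0 K y) K⟮y⟯ F
  have hSF : IsFractionRing (integralClosure (R0 K y) F) F :=
    integralClosure.isFractionRing_of_finite_extension K⟮y⟯ F
  have hfin : Module.Finite (R0 K y) (integralClosure (R0 K y) F) :=
    IsIntegralClosure.finite (R0 K y) K⟮y⟯ F _
  have hmax := isMaximal_span_yR y hy
  have hp0 := span_yR_ne_bot y hy
  have hsum := Ideal.sum_ramification_inertia (integralClosure (R0 K y) F) K⟮y⟯ F hp0
  set p : Ideal (R0 K y) := Ideal.span {yR K y} with hp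
  set T := IsDedekindDomain.primesOverFinset p (integralClosure (R0 K y) F) with hT
  have hTmem : ∀ P, P ∈ T ↔ P ∈ p.primesOver (integralClosure (R0 K y) F) :=
    fun P => IsDedekindDomain.mem_primesOverFinset_iff hp0 _
  have hprime : ∀ P ∈ T, P.IsPrime := fun P hP => ((hTmem P).mp hP).1
  have hlies : ∀ P ∈ T, P.LiesOver p := fun P hP => ((hTmem P).mp hP).2
  have hbot : ∀ P ∈ T, P ≠ ⊥ := by
    intro P hP hPbot
    have h1 := (hlies P hP).over
    rw [hPbot] at h1
    have h2 : yR K y ∈ p := Ideal.subset_span rfl
    rw [h1, Ideal.under_def, Ideal.mem_comap, Ideal.mem_bot] at h2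
    have hinj : Function.Injective (algebraMap (R0 K y) (integralClosure (R0 K y) F)) :=
      FaithfulSMul.algebraMap_injective _ _
    exact yR_ne_zero y hy (hinj (by rw [h2, map_zero]))
  let w : T → HeightOneSpectrum (integralClosure (R0 K y) F) :=
    fun P => ⟨P.1, hprime P.1 P.2, hbot P.1 P.2⟩
  let pl : T → Place K F := fun P => Place.ofHeightOneSpectrum (K := K) (F := F) (w P)
  have hplinj : Function.Injective pl := by
    intro P Q hPQ
    have := ofHeightOneSpectrum_injective (K := K) (F := F) hPQ
    exact Subtype.ext (congrArg HeightOneSpectrum.asIdeal this)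
  let vp : HeightOneSpectrum (R0 K y) := ⟨p, hmax.isPrime, hp0⟩
  have hyS : (algebraMap (integralClosure (R0 K y) F) F)
      (algebraMap (R0 K y) (integralClosure (R0 K y) F) (yR K y)) = y := rfl
  have hord : ∀ P : T, (pl P).ord y = (p.ramificationIdx' P.1 : ℤ) := by
    intro P
    have hl : (w P).asIdeal.LiesOver vp.asIdeal := hlies P.1 P.2
    have h1 := HeightOneSpectrum.intValuation_liesOver vp (w P) (yR K y)
    have h2 : vp.intValuation (yR K y) = WithZero.exp (-1 : ℤ) :=
      HeightOneSpectrum.intValuation_singleton vp (yR_ne_zero y hy) rfl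
    show (Place.ofHeightOneSpectrum (K := K) (F := F) (w P)).ord y = _
    rw [ord_ofHeightOneSpectrum (K := K) (w P) hy0]
    have hval : (w P).valuation F y = (w P).intValuation
        (algebraMap (R0 K y) (integralClosure (R0 K y) F) (yR K y)) := by
      have := HeightOneSpectrum.valuation_of_algebraMap (K := F) (w P)
        (algebraMap (R0 K y) (integralClosure (R0 K y) F) (yR K y))
      exact this
    rw [hval, ← h1, h2, ← WithZero.exp_nsmul, WithZero.log_exp]
    simp
    rfl
  refine ⟨T.attach.image pl, ?_, ?_⟩
  · intro v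
    rw [Finset.mem_image]
    constructor
    · rintro ⟨P, -, rfl⟩
      rw [hord P]
      have hl : P.1.LiesOver p := hlies P.1 P.2
      have hpr : P.1.IsPrime := hprime P.1 P.2
      have : p.ramificationIdx' P.1 ≠ 0 :=
        Ideal.IsDedekindDomain.ramificationIdx'_ne_zero_of_liesOver P.1 hp0
      exact_mod_cast Nat.pos_of_ne_zero this
    · intro hv
      obtain ⟨w₀, hw₀⟩ := exists_heightOneSpectrum_of_le (K := K) (F := F) v
        (fun s => integralClosure_le_of_ord_nonneg y v hv.le s)
      have hyw : algebraMap (R0 K y) (integralClosure (R0 K y) F) (yR K y) ∈ w₀.asIdeal := by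
        rw [mem_asIdeal_iff_ord_pos (K := K) (F := F), hw₀, hyS]
        exact Or.inr hv
      have hw₀T : w₀.asIdeal ∈ T := by
        rw [hTmem]
        refine ⟨w₀.isPrime, ⟨?_⟩⟩
        refine hmax.eq_of_le (Ideal.comap_ne_top _ w₀.isPrime.ne_top) ?_
        rw [hp, Ideal.span_le]
        rintro x hx
        rw [Set.mem_singleton_iff] at hx
        subst hx
        exact hyw
      refine ⟨⟨w₀.asIdeal, hw₀T⟩, Finset.mem_attach _ _, ?_⟩
      rw [← hw₀]
  · rw [Finset.sum_image (fun P _ Q _ h => hplinj h)]
    have h1 : ∑ P ∈ T.attach, (pl P).ord y = ∑ P ∈ T.attach, ((p.ramificationIdx' P.1 : ℕ) : ℤ) :=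
      Finset.sum_congr rfl (fun P _ => hord P)
    rw [h1, Finset.sum_attach T (fun P => ((p.ramificationIdx' P : ℕ) : ℤ)), ← hsum]
    push_cast
    refine Finset.sum_congr rfl (fun P hP => ?_)
    have hl : P.LiesOver p := hlies P hP
    have hpr : P.IsPrime := hprime P hP
    rw [inertiaDeg'_eq_one y hy P]
    simp

/-- **Fundamental identity**, with an arbitrary name `E` for the subfield `K(y)`. -/
theorem exists_finset_ord_pos [IsAlgClosed K] [CharZero K] (E : IntermediateField K F)
    [FiniteDimensional E F] (y : F) (hy : Transcendental K y) (hE : K⟮y⟯ = E) :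
    ∃ s : Finset (Place K F), (∀ v, v ∈ s ↔ 0 < v.ord y) ∧
      ∑ v ∈ s, v.ord y = (Module.finrank E F : ℤ) := by
  subst hE
  exact exists_finset_ord_pos_adjoin y hy

end Fermat.Agent.S24.H79
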